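import Mathlib

set_option autoImplicit false

/-!
# S18 / AT / Bridge / PS : power series lemmas   (task B-PS)

All elementary.  `σ = C c' + X * u`, `u` with nonzero constant coefficient.
* `exists_powerSeries_of_order`: `z := ιs - C c'` has order `1`; `LaurentSeries.single_order_mul_powerSeriesPart z`:
  `z = single 1 1 * ofPowerSeries (powerSeriesPart z)`, `single 1 1 = ofPowerSeries X`
  (`HahnSeries.ofPowerSeries_X`), the constant coefficient of `powerSeriesPart z` is the leading coefficient `≠ 0`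
  (`z ≠ 0` because `order 0 = 0 ≠ 1`).  See `Fermat/Agent/S18/H/Roots.lean` for similar manipulations.
* `constantCoeff_aeval`: `constantCoeff` is a `𝕜`-algebra hom: `Polynomial.aeval_algHom_apply`/`hom_eval₂`.
* `aeval_ne_zero`: `Q = (X - C c')^k * Q₁`, `Q₁(c') ≠ 0` (`Polynomial.exists_eq_pow_rootMultiplicity_mul_and_not_dvd`,
  `dvd_iff_isRoot`); `aeval σ (X - C c') = X * u ≠ 0`; `aeval σ Q₁` has constant coefficient `Q₁(c') ≠ 0`.
* `aeval_simple_root`: `Q = (X - C c') * Q₁` (`dvd_iff_isRoot`), `Q'(c') = Q₁(c')`; `w := u * aeval σ Q₁`.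
* `mem_range_of_isIntegral`: `PowerSeries 𝕜` is integrally closed (PID/UFD) with fraction field `LaurentSeries 𝕜`
  (instance `IsFractionRing 𝕜⟦X⟧ 𝕜⸨X⸩`): `IsIntegrallyClosed.isIntegral_iff`; `algebraMap = ofPowerSeries` (`rfl` or
  `LaurentSeries.coe_algebraMap`).
-/

noncomputable section

namespace Fermat.Agent.S18.PS

open Polynomial

variable {𝕜 : Type} [Field 𝕜]

theorem exists_powerSeries_of_order {ιs : LaurentSeries 𝕜} {c' : 𝕜}
    (h : (ιs - HahnSeries.C c').order = 1) :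
    ∃ u : PowerSeries 𝕜, PowerSeries.constantCoeff (R := 𝕜) u ≠ 0 ∧
      ιs = HahnSeries.ofPowerSeries ℤ 𝕜 (PowerSeries.C c' + PowerSeries.X * u) := by
  set z : LaurentSeries 𝕜 := ιs - HahnSeries.C c' with hz
  have hz0 : z ≠ 0 := by
    intro h0
    rw [h0, HahnSeries.order_zero] at h
    exact zero_ne_one h
  have hzU : HahnSeries.single z.order (1 : 𝕜) * HahnSeries.ofPowerSeries ℤ 𝕜 z.powerSeriesPart = z :=
    LaurentSeries.single_order_mul_powerSeriesPart z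
  refine ⟨z.powerSeriesPart, ?_, ?_⟩
  · rw [← PowerSeries.coeff_zero_eq_constantCoeff_apply, LaurentSeries.powerSeriesPart_coeff]
    simpa using HahnSeries.leadingCoeff_ne_zero.2 hz0
  · rw [map_add, map_mul, HahnSeries.ofPowerSeries_C, HahnSeries.ofPowerSeries_X]
    rw [h] at hzU
    rw [hzU, hz]
    ring

theorem constantCoeff_aeval (σ : PowerSeries 𝕜) (Q : 𝕜[X]) :
    PowerSeries.constantCoeff (R := 𝕜) (aeval σ Q) = Q.eval (PowerSeries.constantCoeff (R := 𝕜) σ) := by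
  rw [aeval_def, hom_eval₂]
  have : (PowerSeries.constantCoeff (R := 𝕜)).comp (algebraMap 𝕜 (PowerSeries 𝕜)) = RingHom.id 𝕜 := by
    ext a
    simp
  rw [this, eval₂_id]

theorem aeval_X_sub_C (c' : 𝕜) (u : PowerSeries 𝕜) :
    aeval (PowerSeries.C c' + PowerSeries.X * u) (X - C c' : 𝕜[X]) = PowerSeries.X * u := by
  rw [map_sub, aeval_X, aeval_C]
  have : algebraMap 𝕜 (PowerSeries 𝕜) c' = PowerSeries.C c' := rfl
  rw [this]
  ring

theorem constantCoeff_sigma (c' : 𝕜) (u : PowerSeries 𝕜) :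
    PowerSeries.constantCoeff (R := 𝕜) (PowerSeries.C c' + PowerSeries.X * u) = c' := by
  simp

theorem aeval_ne_zero {c' : 𝕜} {u : PowerSeries 𝕜} (hu : PowerSeries.constantCoeff (R := 𝕜) u ≠ 0)
    {Q : 𝕜[X]} (hQ : Q ≠ 0) : aeval (PowerSeries.C c' + PowerSeries.X * u) Q ≠ 0 := by
  obtain ⟨Q₁, hQ₁, hnd⟩ := Polynomial.exists_eq_pow_rootMultiplicity_mul_and_not_dvd Q hQ c'
  rw [hQ₁, map_mul, map_pow, aeval_X_sub_C]
  have hu0 : u ≠ 0 := by
    rintro rfl
    exact hu (map_zero _)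
  refine mul_ne_zero (pow_ne_zero _ (mul_ne_zero PowerSeries.X_ne_zero hu0)) ?_
  intro h0
  have h1 := congrArg (PowerSeries.constantCoeff (R := 𝕜)) h0
  rw [constantCoeff_aeval, constantCoeff_sigma, map_zero] at h1
  exact hnd (dvd_iff_isRoot.2 h1)

theorem aeval_simple_root {c' : 𝕜} {u : PowerSeries 𝕜}
    (hu : PowerSeries.constantCoeff (R := 𝕜) u ≠ 0) {Q : 𝕜[X]} (h0 : Q.eval c' = 0)
    (h1 : (derivative Q).eval c' ≠ 0) :
    ∃ w : (PowerSeries 𝕜)ˣ, aeval (PowerSeries.C c' + PowerSeries.X * u) Q = PowerSeries.X * (w : PowerSeries 𝕜) := by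
  obtain ⟨Q₁, rfl⟩ := dvd_iff_isRoot.2 h0
  have h2 : Q₁.eval c' ≠ 0 := by
    simpa [derivative_mul] using h1
  have hw : IsUnit (u * aeval (PowerSeries.C c' + PowerSeries.X * u) Q₁) := by
    rw [PowerSeries.isUnit_iff_constantCoeff, map_mul, constantCoeff_aeval, constantCoeff_sigma]
    exact isUnit_iff_ne_zero.2 (mul_ne_zero hu h2)
  refine ⟨hw.unit, ?_⟩
  rw [map_mul, aeval_X_sub_C, IsUnit.unit_spec, mul_assoc]

theorem mem_range_of_isIntegral {z : LaurentSeries 𝕜}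
    (hz : (HahnSeries.ofPowerSeries ℤ 𝕜).IsIntegralElem z) :
    z ∈ (HahnSeries.ofPowerSeries ℤ 𝕜).range := by
  have h1 : IsIntegral (PowerSeries 𝕜) z := hz
  obtain ⟨y, hy⟩ := (IsIntegrallyClosed.isIntegral_iff (R := PowerSeries 𝕜)
    (K := LaurentSeries 𝕜)).1 h1
  exact ⟨y, hy⟩

end Fermat.Agent.S18.PS
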