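import Fermat.Agent.S18.AT.Bridge.Target
import Fermat.Agent.S18.AT.Bridge.PS
import Fermat.Agent.S18.AT.AU.Defs

set_option autoImplicit false
set_option linter.unusedSectionVars false
set_option linter.style.haveILetI false

/-!
# S18 / AT / Bridge / HorChart : a chart `ιs` at a simple root `c'` of `m` gives `HorAt m`   (task B-HorChart)

SKETCH.  `PS.exists_powerSeries_of_order hord` : `ιs = ofPowerSeries σ`, `σ = C c' + X * u`.
`Λ := AlgebraicClosure (LaurentSeries 𝕜)`, `ρ : PowerSeries 𝕜 →+* Λ := (algebraMap _ Λ).comp (HahnSeries.ofPowerSeries ℤ 𝕜)` (injective),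
`j : K →+* Λ := ρ.comp ((PowerSeries.C).comp jK)`, `τ := ρ σ`.  Note `j a = algebraMap _ Λ (HahnSeries.C (jK a))`
(`HahnSeries.ofPowerSeries_C`) and `τ = algebraMap _ Λ ιs`, as in `LandsIn`.
`evF R j τ Q = ρ (aeval σ (Q.map (jK.comp (algebraMap R K))))` (`Polynomial.ringHom_ext` / `hom_eval₂`); injective by `PS.aeval_ne_zero`
(and injectivity of `jK ∘ algebraMap R K`, `Polynomial.map_injective`).
Instances: `tgtAlgL R ht j τ hinj : Algebra K⟮t⟯ Λ`.  `V := ρ.range`, `k₀ := 𝕜`,
`res := (PowerSeries.constantCoeff).comp (RingEquiv.ofBijective ρ.rangeRestrict ⟨_, _⟩).symm`.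
* H1: `ψ : E →ₐ[K⟮t⟯] Λ`; `algHom_comp` shows `(ψ : E →+* Λ)` satisfies the hypotheses of `LandsIn`, so `ψ y = algebraMap _ Λ z`.  `y` is integral
  over `R[X]` (algebra `chartAlg R K t`, i.e. `(evR R K t).IsIntegralElem y`): monic `P : R[X][X]`, `eval₂ (evR R K t) y P = 0`.  Applying `ψ`
  (`ψ ∘ evR R K t = evF R j τ`, by `Polynomial.ringHom_ext`) and cancelling the injective `algebraMap _ Λ`: `z` is a root of the monic
  `P.map (Q ↦ aeval σ Q.map)` pushed by `ofPowerSeries`; `PS.mem_range_of_isIntegral`.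
* H2: `algebraMap K⟮t⟯ Λ (algebraMap R[X] K⟮t⟯ m) = evF R j τ m = ρ (X * w)`, `w` a unit (`PS.aeval_simple_root`, `liftL_evL`);
  `constantCoeff f = 0 ↔ X ∣ f` (`PowerSeries.X_dvd_iff`).
* H3: `res (ρ (aeval σ Q̃)) = Q̃.eval c'` (`PS.constantCoeff_aeval`), then `h2`.
-/

noncomputable section

namespace Fermat.Agent.S18

open Polynomial IntermediateField

variable {R K E : Type} [CommRing R] [IsDomain R] [IsDiscreteValuationRing R] [Field K] [CharZero K]
  [Algebra R K] [IsFractionRing R K] [Field E] [Algebra K E]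

theorem horAt_of_chart {t : E} (ht : Transcendental K t) (𝕜 : Type) [Field 𝕜] [CharZero 𝕜]
    (jK : K →+* 𝕜) {m : R[X]} {c' : 𝕜}
    (h0 : (m.map (jK.comp (algebraMap R K))).eval c' = 0)
    (h1 : ((derivative m).map (jK.comp (algebraMap R K))).eval c' ≠ 0)
    (h2 : ∀ Q : R[X], (Q.map (jK.comp (algebraMap R K))).eval c' = 0 → m ∣ Q)
    {ιs : LaurentSeries 𝕜} (hord : (ιs - HahnSeries.C c').order = 1) (hl : LandsIn 𝕜 jK t ιs) :
    letI := chartAlg R K t
    letI := chartAlgL R K t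
    AU.HorAt K⟮t⟯ E m := by
  obtain ⟨u, hu, hιs⟩ := PS.exists_powerSeries_of_order hord
  set σ : PowerSeries 𝕜 := PowerSeries.C c' + PowerSeries.X * u with hσ
  have hσ0 : PowerSeries.constantCoeff (R := 𝕜) σ = c' := by
    simp [hσ]
  let Λ := AlgebraicClosure (LaurentSeries 𝕜)
  let ρ : PowerSeries 𝕜 →+* Λ :=
    (algebraMap (LaurentSeries 𝕜) Λ).comp (HahnSeries.ofPowerSeries ℤ 𝕜)
  have hρ : Function.Injective ρ :=
    (algebraMap (LaurentSeries 𝕜) Λ).injective.comp HahnSeries.ofPowerSeries_injective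
  let f : R →+* 𝕜 := jK.comp (algebraMap R K)
  have hf : Function.Injective f := jK.injective.comp (IsFractionRing.injective R K)
  let j : K →+* Λ := ρ.comp ((PowerSeries.C (R := 𝕜)).comp jK)
  let τ : Λ := ρ σ
  let g : R[X] →+* PowerSeries 𝕜 := (aeval σ : 𝕜[X] →ₐ[𝕜] PowerSeries 𝕜).toRingHom.comp (mapRingHom f)
  have hg : ∀ Q : R[X], g Q = aeval σ (Q.map f) := fun Q => rfl
  have hev' : evF R j τ = ρ.comp g := by
    apply Polynomial.ringHom_ext
    · intro a
      rw [evF_C]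
      simp [g, j, f]
    · rw [evF_X]
      simp [g, τ]
  have hev : ∀ Q : R[X], evF R j τ Q = ρ (aeval σ (Q.map f)) := fun Q => by
    rw [hev']; rfl
  have hinj : Function.Injective (evF R j τ) := by
    rw [injective_iff_map_eq_zero]
    intro Q hQ
    rw [hev] at hQ
    have h3 : aeval σ (Q.map f) = 0 := hρ (by rw [hQ, map_zero])
    by_contra hQ0
    exact PS.aeval_ne_zero (c' := c') hu
      (fun h => hQ0 ((Polynomial.map_eq_zero_iff hf).1 h)) h3
  letI := chartAlg R K t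
  letI := chartAlgL R K t
  letI := tgtAlgL R ht j τ hinj
  let eqv : PowerSeries 𝕜 ≃+* ρ.range :=
    RingEquiv.ofBijective ρ.rangeRestrict
      ⟨fun a b hab => hρ (congrArg Subtype.val hab), ρ.rangeRestrict_surjective⟩
  have heqv : ∀ a : PowerSeries 𝕜, ((eqv a : ρ.range) : Λ) = ρ a := fun a => rfl
  have hsymm : ∀ (a : PowerSeries 𝕜) (ha : ρ a ∈ ρ.range), eqv.symm ⟨ρ a, ha⟩ = a := by
    intro a ha
    rw [RingEquiv.symm_apply_eq]
    exact Subtype.ext (heqv a).symm
  have hι : ∀ Q : R[X], algebraMap K⟮t⟯ Λ (algebraMap R[X] K⟮t⟯ Q) = ρ (aeval σ (Q.map f)) := by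
    intro Q
    rw [← hev]
    exact liftL_evL ht j τ hinj Q
  obtain ⟨w, hw⟩ := PS.aeval_simple_root (c' := c') hu (Q := m.map f) h0
    (by rw [derivative_map]; exact h1)
  refine ⟨Λ, inferInstance, inferInstance, inferInstance, ρ.range, 𝕜, inferInstance, inferInstance,
    (PowerSeries.constantCoeff (R := 𝕜)).comp (eqv.symm : ρ.range →+* PowerSeries 𝕜), ?_, ?_, ?_⟩
  · -- H1
    intro ψ y hy
    obtain ⟨h4, h5⟩ := algHom_comp ht j τ hinj ψ
    obtain ⟨z, hz⟩ := hl (ψ : E →+* Λ)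
      (by
        intro a
        have := congrArg (fun F : K →+* Λ => F a) h4
        simp only [RingHom.comp_apply] at this
        rw [this]
        simp [j, ρ]
        rfl)
      (by
        show ψ t = _
        rw [h5, hιs]; rfl) y
    have hψ : (ψ : E →+* Λ).comp (evR R K t) = evF R j τ := by
      apply Polynomial.ringHom_ext
      · intro a
        rw [evF_C, RingHom.comp_apply, evR_C, rE_apply]
        exact congrArg (fun F : K →+* Λ => F (algebraMap R K a)) h4
      · rw [evF_X, RingHom.comp_apply, evR_X]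
        exact h5
    obtain ⟨P, hPm, hP⟩ := hy
    have hzint : (HahnSeries.ofPowerSeries ℤ 𝕜).IsIntegralElem z := by
      refine ⟨P.map g, hPm.map g, ?_⟩
      apply (algebraMap (LaurentSeries 𝕜) Λ).injective
      rw [map_zero, hom_eval₂, eval₂_map, hz]
      have h6 : ((algebraMap (LaurentSeries 𝕜) Λ).comp (HahnSeries.ofPowerSeries ℤ 𝕜)).comp g =
          (ψ : E →+* Λ).comp (evR R K t) := by
        rw [hψ, hev']
      rw [h6, ← hom_eval₂]
      have h7 : eval₂ (evR R K t) y P = 0 := hP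
      rw [h7, map_zero]
    obtain ⟨a, ha⟩ := PS.mem_range_of_isIntegral hzint
    refine ⟨a, ?_⟩
    show algebraMap (LaurentSeries 𝕜) Λ (HahnSeries.ofPowerSeries ℤ 𝕜 a) = ψ y
    rw [ha]; exact hz
  · -- H2
    intro v
    rw [hι, hw]
    obtain ⟨a, rfl⟩ := eqv.surjective v
    simp only [RingHom.comp_apply, RingHom.coe_coe, RingEquiv.symm_apply_apply]
    constructor
    · intro ha
      obtain ⟨b, rfl⟩ := PowerSeries.X_dvd_iff.2 ha
      refine ⟨eqv (((w⁻¹ : (PowerSeries 𝕜)ˣ) : PowerSeries 𝕜) * b), ?_⟩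
      rw [heqv, heqv, ← map_mul]
      congr 1
      rw [mul_assoc, Units.mul_inv_cancel_left]
    · rintro ⟨v', hv'⟩
      obtain ⟨b, rfl⟩ := eqv.surjective v'
      rw [heqv, heqv, ← map_mul] at hv'
      rw [hρ hv']
      simp
  · -- H3
    intro Q hQ hres
    apply h2
    have h8 : (⟨algebraMap K⟮t⟯ Λ (algebraMap R[X] K⟮t⟯ Q), hQ⟩ : ρ.range) =
        eqv (aeval σ (Q.map f)) := Subtype.ext ((hι Q).trans (heqv _).symm)
    rw [h8] at hres
    simp only [RingHom.comp_apply, RingHom.coe_coe, RingEquiv.symm_apply_apply] at hres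
    rw [PS.constantCoeff_aeval, hσ0] at hres
    exact hres

end Fermat.Agent.S18
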