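import Fermat.Agent.S18.AT.InO

set_option autoImplicit false

/-!
# S18 / AT / Bridge / HorPoly : horizontal primes of `R[X]` and points of `𝕜`   (task B-HorPoly)

SKETCH.  `f := jK.comp (algebraMap R K)` (injective).  `m` prime in `R[X]`.
* `natDegree m ≠ 0`: otherwise `m = C a` with `a` prime in `R` (`Polynomial.prime_C_iff`), so `a ~ ϖ` in the DVR
  (`IsDiscreteValuationRing.associated_of_irreducible`), so `m ~ C ϖ`.
* `m` is primitive (`Irreducible.isPrimitive`), so `m.map (algebraMap R K)` is irreducible in `K[X]`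
  (`Polynomial.IsPrimitive.irreducible_iff_irreducible_map_fraction_map`).
* `c'` := a root of `m.map f` in `𝕜` (`IsAlgClosed.exists_root`, degree `≠ 0`).
* if `Q(c') = 0`: with `letI : Algebra K 𝕜 := jK.toAlgebra`, `m_K` is associated to `minpoly K c'`
  (`minpoly.eq_of_irreducible`…), `minpoly.dvd` gives `m_K ∣ Q_K`; descend to `R[X]`:
  `Q = C (content Q) * primPart Q`, `Polynomial.IsPrimitive.dvd_iff_fraction_map_dvd_fraction_map` for `m` and `primPart Q`
  (`Q_K = C (content) * (primPart Q)_K`, content `≠ 0` a unit of `K[X]`; `Q = 0` trivial).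
* `m'(c') ≠ 0`: otherwise `m ∣ derivative m`, impossible by degrees (`derivative m ≠ 0` in characteristic `0`:
  `natDegree_derivative_lt`, `Polynomial.eq_zero_of_dvd_of_natDegree_lt`, `derivative_eq_zero`-type lemmas; `R` has
  characteristic `0` since `R → K` is injective).
-/

noncomputable section

namespace Fermat.Agent.S18

open Polynomial IntermediateField

variable {R K : Type} [CommRing R] [IsDomain R] [IsDiscreteValuationRing R] [Field K] [CharZero K]
  [Algebra R K] [IsFractionRing R K]

theorem exists_root_of_prime {ϖ : R} (hϖ : Irreducible ϖ) (𝕜 : Type) [Field 𝕜] [IsAlgClosed 𝕜]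
    (jK : K →+* 𝕜) {m : R[X]} (hm : Prime m) (hmp : ¬ Associated m (C ϖ)) :
    ∃ c' : 𝕜, (m.map (jK.comp (algebraMap R K))).eval c' = 0 ∧
      ((derivative m).map (jK.comp (algebraMap R K))).eval c' ≠ 0 ∧
      ∀ Q : R[X], (Q.map (jK.comp (algebraMap R K))).eval c' = 0 → m ∣ Q := by
  classical
  let _ : NormalizedGCDMonoid R := Classical.arbitrary _
  have hinjR : Function.Injective (algebraMap R K) := IsFractionRing.injective R K
  have hinj : Function.Injective (jK.comp (algebraMap R K)) := jK.injective.comp hinjR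
  have : CharZero R := (algebraMap R K).charZero
  -- degree
  have hdeg : m.natDegree ≠ 0 := by
    intro h0
    obtain ⟨a, ha⟩ := natDegree_eq_zero.1 h0
    apply hmp
    rw [← ha] at hm ⊢
    have ha' : Prime a := Polynomial.prime_C_iff.1 hm
    have h1 : Associated a ϖ := IsDiscreteValuationRing.associated_of_irreducible R ha'.irreducible hϖ
    obtain ⟨u, hu⟩ := h1
    exact ⟨Units.map (C : R →+* R[X]).toMonoidHom u, by
      rw [← hu, C_mul]; rfl⟩
  have hprim : m.IsPrimitive := hm.irreducible.isPrimitive hdeg
  have hirr : Irreducible (m.map (algebraMap R K)) :=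
    (hprim.irreducible_iff_irreducible_map_fraction_map (K := K)).1 hm.irreducible
  have hdeg' : (m.map (jK.comp (algebraMap R K))).degree ≠ 0 := by
    rw [degree_map_eq_of_injective hinj]
    intro h0
    exact hdeg (natDegree_eq_of_degree_eq_some h0)
  obtain ⟨c', hc'⟩ := IsAlgClosed.exists_root _ hdeg'
  have key : ∀ Q : R[X], (Q.map (jK.comp (algebraMap R K))).eval c' = 0 → m ∣ Q := by
    intro Q hQ
    by_cases hQ0 : Q = 0
    · rw [hQ0]; exact dvd_zero m
    let _ : Algebra K 𝕜 := jK.toAlgebra
    have haev : ∀ P : R[X], aeval c' (P.map (algebraMap R K)) =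
        (P.map (jK.comp (algebraMap R K))).eval c' := by
      intro P
      rw [aeval_def, eval₂_map, eval_map]
      rfl
    have hm0 : aeval c' (m.map (algebraMap R K)) = 0 := by rw [haev]; exact hc'
    have hQ1 : aeval c' (Q.map (algebraMap R K)) = 0 := by rw [haev]; exact hQ
    have hdvd1 : minpoly K c' ∣ Q.map (algebraMap R K) := minpoly.dvd K c' hQ1
    have hdvd2 : minpoly K c' ∣ m.map (algebraMap R K) := minpoly.dvd K c' hm0
    have hint : IsIntegral K c' := by
      have : IsAlgebraic K c' := ⟨m.map (algebraMap R K), hirr.ne_zero, hm0⟩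
      exact this.isIntegral
    have hassoc : Associated (minpoly K c') (m.map (algebraMap R K)) :=
      (minpoly.irreducible hint).associated_of_dvd hirr hdvd2
    have hdvd3 : m.map (algebraMap R K) ∣ Q.map (algebraMap R K) := hassoc.symm.dvd.trans hdvd1
    -- descend
    have hQe : Q = C Q.content * Q.primPart := Q.eq_C_content_mul_primPart
    have hc0 : Q.content ≠ 0 := by rwa [Ne, content_eq_zero_iff]
    have hdvd4 : m.map (algebraMap R K) ∣ Q.primPart.map (algebraMap R K) := by
      have h5 : Q.map (algebraMap R K) =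
          C (algebraMap R K Q.content) * Q.primPart.map (algebraMap R K) := by
        conv_lhs => rw [hQe]
        rw [Polynomial.map_mul, map_C]
      rw [h5] at hdvd3
      have hu : IsUnit (C (algebraMap R K Q.content) : K[X]) := by
        rw [Polynomial.isUnit_C, isUnit_iff_ne_zero]
        exact (map_ne_zero_iff _ hinjR).2 hc0
      exact (hu.dvd_mul_left).1 hdvd3
    have hdvd5 : m ∣ Q.primPart :=
      (hprim.dvd_iff_fraction_map_dvd_fraction_map (K := K)).2 hdvd4
    rw [hQe]
    exact Dvd.dvd.mul_left hdvd5 _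
  refine ⟨c', hc', ?_, key⟩
  intro h0
  have h1 : m ∣ derivative m := key _ h0
  have h2 : derivative m = 0 :=
    Polynomial.eq_zero_of_dvd_of_natDegree_lt h1 (natDegree_derivative_lt hdeg)
  exact hdeg (Polynomial.derivative_eq_zero.1 h2)

end Fermat.Agent.S18
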