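import Fermat.Agent.S18.AT.Bridge.Target
import Fermat.Agent.S18.AT.AU.Defs
import Fermat.Agent.S18.AT.Val

set_option autoImplicit false
set_option linter.style.haveILetI false
set_option linter.unusedSectionVars false

/-!
# S18 / AT / Bridge / Ring : `A = R[X]`, `p = C ϖ` satisfy the abstract hypotheses   (task B-Ring)

* `quot_isPrincipalIdealRing`: `Ideal.polynomialQuotientEquivQuotientPolynomial (span {ϖ}) : (R ⧸ I)[X] ≃+* R[X] ⧸ I.map C`,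
  `Ideal.map_span`, `R ⧸ span {ϖ}` is a field (`hϖ.maximalIdeal_eq`, `Ideal.Quotient.field`), polynomial rings over fields are
  PIDs (Euclidean), transport by `IsPrincipalIdealRing.of_surjective`.
* `evF_injective_of_isGauss`: `Q ≠ 0`: `Q = C (ϖ^k) * Q'` with `¬ C ϖ ∣ Q'` (UFD / `WfDvdMonoid`:
  `WfDvdMonoid.max_power_factor`), `evF Q' ∉ nonunits` by `IsGauss` + `not_C_dvd_iff`, so `≠ 0`; `ιK ϖ ≠ 0`.
* `gaussA_of_isGauss`: membership in `O`: `eval₂` is a sum of products of elements of `O` (`Polynomial.eval₂_eq_sum_range`);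
  `→` : `IsGauss` + `not_C_dvd_iff`; `←` : `𝒱.map_nonunit`, `mul_mem_nonunits'`.
-/

noncomputable section

namespace Fermat.Agent.S18

open Polynomial IntermediateField

variable {R K : Type} [CommRing R] [IsDomain R] [IsDiscreteValuationRing R] [Field K]
  [Algebra R K] [IsFractionRing R K]

theorem quot_isPrincipalIdealRing {ϖ : R} (hϖ : Irreducible ϖ) :
    IsPrincipalIdealRing (R[X] ⧸ Ideal.span {(C ϖ : R[X])}) := by
  set J : Ideal R := Ideal.span {ϖ} with hJ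
  haveI : J.IsMaximal := by
    rw [hJ, ← hϖ.maximalIdeal_eq]; infer_instance
  letI := Ideal.Quotient.field J
  have hmap : J.map (C : R →+* R[X]) = Ideal.span {C ϖ} := by
    rw [hJ, Ideal.map_span, Set.image_singleton]
  rw [← hmap]
  exact IsPrincipalIdealRing.of_surjective
    (Ideal.polynomialQuotientEquivQuotientPolynomial J).toRingHom
    (Ideal.polynomialQuotientEquivQuotientPolynomial J).surjective

theorem ring_evF_mem (𝒱 : VData R K) {ιt : 𝒱.Ω} (hg : IsGauss 𝒱 ιt) (Q : R[X]) :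
    evF R 𝒱.ιK ιt Q ∈ 𝒱.O := by
  induction Q using Polynomial.induction_on' with
  | add p q hp hq => rw [map_add]; exact 𝒱.O.add_mem _ _ hp hq
  | monomial n a =>
    rw [← C_mul_X_pow_eq_monomial, map_mul, map_pow, evF_C, evF_X]
    exact 𝒱.O.mul_mem _ _ (𝒱.map_mem a) (pow_mem hg.1 n)

theorem ring_evF_mem_nonunits_iff (𝒱 : VData R K) {ιt : 𝒱.Ω} (hg : IsGauss 𝒱 ιt) {ϖ : R}
    (hϖ : Irreducible ϖ) (Q : R[X]) : evF R 𝒱.ιK ιt Q ∈ 𝒱.O.nonunits ↔ C ϖ ∣ Q := by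
  constructor
  · intro h
    by_contra hcon
    obtain ⟨i, hi⟩ := (not_C_dvd_iff hϖ Q).1 hcon
    exact hg.2 Q h i hi
  · rintro ⟨Q', rfl⟩
    rw [map_mul, evF_C]
    exact mul_mem_nonunits' _ (𝒱.map_nonunit ϖ hϖ.not_isUnit) (ring_evF_mem 𝒱 hg Q')

theorem ring_unif_ne_zero (𝒱 : VData R K) {ϖ : R} (hϖ : Irreducible ϖ) :
    𝒱.ιK (algebraMap R K ϖ) ≠ 0 := by
  rw [Ne, map_eq_zero]
  intro h
  exact hϖ.ne_zero ((IsFractionRing.injective R K) (by rw [h, map_zero]))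

/-- `evF p ∈ ϖᵏ O ⟹ ϖᵏ ∣ p`. -/
theorem ring_C_pow_dvd (𝒱 : VData R K) {ιt : 𝒱.Ω} (hg : IsGauss 𝒱 ιt) {ϖ : R}
    (hϖ : Irreducible ϖ) (k : ℕ) : ∀ (p : R[X]) (o : 𝒱.Ω), o ∈ 𝒱.O →
      evF R 𝒱.ιK ιt p = 𝒱.ιK (algebraMap R K ϖ) ^ k * o → (C ϖ : R[X]) ^ k ∣ p := by
  induction k with
  | zero => intro p o _ _; simp
  | succ k ih =>
    intro p o ho h
    have h1 : evF R 𝒱.ιK ιt p ∈ 𝒱.O.nonunits := by
      rw [h, pow_succ', mul_assoc]
      exact mul_mem_nonunits' _ (𝒱.map_nonunit ϖ hϖ.not_isUnit)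
        (𝒱.O.mul_mem _ _ (pow_mem (𝒱.map_mem ϖ) k) ho)
    obtain ⟨p', rfl⟩ := (ring_evF_mem_nonunits_iff 𝒱 hg hϖ p).1 h1
    rw [map_mul, evF_C, pow_succ', mul_assoc] at h
    have h2 := mul_left_cancel₀ (ring_unif_ne_zero 𝒱 hϖ) h
    rw [pow_succ']
    exact mul_dvd_mul_left _ (ih p' o ho h2)

theorem evF_injective_of_isGauss (𝒱 : VData R K) {ιt : 𝒱.Ω} (h : IsGauss 𝒱 ιt) :
    Function.Injective (evF R 𝒱.ιK ιt) := by
  obtain ⟨ϖ, hϖ⟩ := IsDiscreteValuationRing.exists_irreducible R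
  rw [injective_iff_map_eq_zero]
  intro p hp
  by_contra hne
  obtain ⟨k, hk⟩ := FiniteMultiplicity.of_not_isUnit (prime_C_unif hϖ).not_isUnit hne
  exact hk (ring_C_pow_dvd 𝒱 h hϖ (k + 1) p 0 𝒱.O.zero_mem (by rw [hp, mul_zero]))

theorem gaussA_of_isGauss (𝒱 : VData R K) {ϖ : R} (hϖ : Irreducible ϖ) {ιt : 𝒱.Ω}
    (h : IsGauss 𝒱 ιt) :
    letI := tgtAlg R 𝒱.ιK ιt
    AU.GaussA (C ϖ : R[X]) 𝒱.O := by
  letI := tgtAlg R 𝒱.ιK ιt
  exact fun Q => ⟨ring_evF_mem 𝒱 h Q, ring_evF_mem_nonunits_iff 𝒱 h hϖ Q⟩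

end Fermat.Agent.S18
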