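import Fermat.Agent.S18.AT.InO

set_option autoImplicit false
set_option linter.style.haveILetI false
set_option linter.unusedSectionVars false

/-!
# S18 / AT / Bridge / Target : a field `F` receiving `K(t)`   (task B-Target)

`F` a field, `j : K →+* F`, `τ : F` such that `evF R j τ : R[X] →+* F` (`X ↦ τ`) is injective.  Then `F` becomes an algebra
over `R[X]` and over `K⟮t⟯` (`t : E` transcendental), and the `K⟮t⟯`-algebra homs `E → F` are exactly the ring homs `φ` with
`φ ∘ algebraMap K E = j`, `φ t = τ`.  Used with `F = 𝒱.Ω` and with `F = AlgebraicClosure (LaurentSeries 𝕜)`.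

HINTS.  `IsFractionRing.lift_algebraMap`, `IsLocalization.ringHom_ext (nonZeroDivisors R[X])`, `Polynomial.ringHom_ext`,
`IsFractionRing`-extensionality for ring homs out of `K = Frac R` (`IsLocalization.ringHom_ext (nonZeroDivisors R)`),
`coe_evL`, `chart_isFractionRing`.
-/

noncomputable section

namespace Fermat.Agent.S18

open Polynomial IntermediateField

variable (R : Type) {K E F : Type} [CommRing R] [IsDomain R] [IsDiscreteValuationRing R] [Field K]
  [Algebra R K] [IsFractionRing R K] [Field E] [Algebra K E] [Field F]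

/-- evaluation `R[X] → F`, `X ↦ τ`, coefficients through `j`. -/
def evF (j : K →+* F) (τ : F) : R[X] →+* F := eval₂RingHom (j.comp (algebraMap R K)) τ

/-- the `R[X]`-algebra structure on `F`. -/
abbrev tgtAlg (j : K →+* F) (τ : F) : Algebra R[X] F := (evF R j τ).toAlgebra

/-- the extension `K(t) → F` of `evF`. -/
def liftL {t : E} (ht : Transcendental K t) (j : K →+* F) (τ : F)
    (hinj : Function.Injective (evF R j τ)) : K⟮t⟯ →+* F :=
  letI := chartAlgL R K t
  haveI := chart_isFractionRing (R := R) ht
  IsFractionRing.lift hinj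

/-- the `K(t)`-algebra structure on `F`. -/
abbrev tgtAlgL {t : E} (ht : Transcendental K t) (j : K →+* F) (τ : F)
    (hinj : Function.Injective (evF R j τ)) : Algebra K⟮t⟯ F := (liftL R ht j τ hinj).toAlgebra

variable {R}

theorem liftL_evL {t : E} (ht : Transcendental K t) (j : K →+* F) (τ : F)
    (hinj : Function.Injective (evF R j τ)) (Q : R[X]) :
    liftL R ht j τ hinj (evL R K t Q) = evF R j τ Q := by
  letI := chartAlgL R K t
  haveI := chart_isFractionRing (R := R) ht
  exact IsFractionRing.lift_algebraMap hinj Q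

theorem tgt_tower {t : E} (ht : Transcendental K t) (j : K →+* F) (τ : F)
    (hinj : Function.Injective (evF R j τ)) :
    letI := chartAlgL R K t
    letI := tgtAlg R j τ
    letI := tgtAlgL R ht j τ hinj
    IsScalarTower R[X] K⟮t⟯ F := by
  letI := chartAlgL R K t
  letI := tgtAlg R j τ
  letI := tgtAlgL R ht j τ hinj
  exact IsScalarTower.of_algebraMap_eq fun Q => (liftL_evL ht j τ hinj Q).symm

theorem evF_C (j : K →+* F) (τ : F) (a : R) : evF R j τ (C a) = j (algebraMap R K a) := by
  simp [evF]

theorem evF_X (j : K →+* F) (τ : F) : evF R j τ X = τ := by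
  simp [evF]

theorem evL_C (t : E) (a : R) : evL R K t (C a) = algebraMap K K⟮t⟯ (algebraMap R K a) := by
  simp [evL]

theorem evL_X (t : E) : evL R K t X = AdjoinSimple.gen K t := by
  simp [evL]

theorem liftL_algebraMap {t : E} (ht : Transcendental K t) (j : K →+* F) (τ : F)
    (hinj : Function.Injective (evF R j τ)) (a : K) :
    liftL R ht j τ hinj (algebraMap K K⟮t⟯ a) = j a := by
  have h : (liftL R ht j τ hinj).comp (algebraMap K K⟮t⟯) = j := by
    apply IsLocalization.ringHom_ext (nonZeroDivisors R)
    refine RingHom.ext fun r => ?_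
    show liftL R ht j τ hinj (algebraMap K K⟮t⟯ (algebraMap R K r)) = j (algebraMap R K r)
    rw [← evL_C, liftL_evL, evF_C]
  exact congrArg (fun f : K →+* F => f a) h

theorem liftL_gen {t : E} (ht : Transcendental K t) (j : K →+* F) (τ : F)
    (hinj : Function.Injective (evF R j τ)) :
    liftL R ht j τ hinj (AdjoinSimple.gen K t) = τ := by
  rw [← evL_X (R := R), liftL_evL, evF_X]

/-- a ring hom `φ : E → F` with `φ ∘ algebraMap K E = j`, `φ t = τ` is a `K(t)`-algebra hom. -/
theorem exists_algHom {t : E} (ht : Transcendental K t) (j : K →+* F) (τ : F)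
    (hinj : Function.Injective (evF R j τ)) (φ : E →+* F) (h1 : φ.comp (algebraMap K E) = j)
    (h2 : φ t = τ) :
    letI := tgtAlgL R ht j τ hinj
    ∃ φ' : E →ₐ[K⟮t⟯] F, (φ' : E →+* F) = φ := by
  letI := tgtAlgL R ht j τ hinj
  letI := chartAlgL R K t
  haveI := chart_isFractionRing (R := R) ht
  have hev : φ.comp (evR R K t) = evF R j τ := by
    apply Polynomial.ringHom_ext
    · intro a
      rw [RingHom.comp_apply, evR_C, evF_C, rE_apply]
      exact congrArg (fun f : K →+* F => f (algebraMap R K a)) h1
    · rw [RingHom.comp_apply, evR_X, evF_X]; exact h2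
  have h : φ.comp (algebraMap K⟮t⟯ E) = liftL R ht j τ hinj := by
    apply IsLocalization.ringHom_ext (nonZeroDivisors R[X])
    refine RingHom.ext fun Q => ?_
    show φ (algebraMap K⟮t⟯ E (evL R K t Q)) = liftL R ht j τ hinj (evL R K t Q)
    rw [liftL_evL]
    exact (congrArg φ (coe_evL t Q)).trans (congrArg (fun f : R[X] →+* F => f Q) hev)
  exact ⟨{ φ with commutes' := fun l => congrArg (fun f : K⟮t⟯ →+* F => f l) h }, rfl⟩

theorem algHom_comp {t : E} (ht : Transcendental K t) (j : K →+* F) (τ : F)
    (hinj : Function.Injective (evF R j τ)) :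
    letI := tgtAlgL R ht j τ hinj
    ∀ φ : E →ₐ[K⟮t⟯] F, (φ : E →+* F).comp (algebraMap K E) = j ∧ φ t = τ := by
  letI := tgtAlgL R ht j τ hinj
  intro φ
  constructor
  · refine RingHom.ext fun a => ?_
    have h1 : algebraMap K E a = algebraMap K⟮t⟯ E (algebraMap K K⟮t⟯ a) := rfl
    show φ (algebraMap K E a) = j a
    rw [h1, ← liftL_algebraMap ht j τ hinj a]
    exact φ.commutes _
  · have h1 := φ.commutes (AdjoinSimple.gen K t)
    have h2 : algebraMap K⟮t⟯ F (AdjoinSimple.gen K t) = τ := liftL_gen (R := R) ht j τ hinj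
    rw [h2] at h1
    exact h1

end Fermat.Agent.S18
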